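/-
S52, Rubin–Silverberg line identity for Klein's `H`, staged for low memory (helper6; generated).
Binomial expansions in the atoms `t, A, B`, the splitting of `klHH` and the regrouping of `rsH`.
-/
import Fermat.Agent.S52.RS
import Fermat.Agent.S52.Klein.Forms

set_option autoImplicit false
set_option linter.unusedSimpArgs false
set_option linter.style.longLine false

namespace Fermat.Agent.S52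

variable {R : Type*} [CommRing R]

set_option maxHeartbeats 4000000 in
theorem rsHL_bexp_20_0 (t A : R) :
    (1 + t * A) ^ 20 =
      (1) * t ^ 0
      + (20 * A) * t ^ 1
      + (190 * A ^ 2) * t ^ 2
      + (1140 * A ^ 3) * t ^ 3
      + (4845 * A ^ 4) * t ^ 4
      + (15504 * A ^ 5) * t ^ 5
      + (38760 * A ^ 6) * t ^ 6
      + (77520 * A ^ 7) * t ^ 7
      + (125970 * A ^ 8) * t ^ 8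
      + (167960 * A ^ 9) * t ^ 9
      + (184756 * A ^ 10) * t ^ 10
      + (167960 * A ^ 11) * t ^ 11
      + (125970 * A ^ 12) * t ^ 12
      + (77520 * A ^ 13) * t ^ 13
      + (38760 * A ^ 14) * t ^ 14
      + (15504 * A ^ 15) * t ^ 15
      + (4845 * A ^ 16) * t ^ 16
      + (1140 * A ^ 17) * t ^ 17
      + (190 * A ^ 18) * t ^ 18
      + (20 * A ^ 19) * t ^ 19
      + (A ^ 20) * t ^ 20 := by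
  ring

set_option maxHeartbeats 4000000 in
theorem rsHL_bexp_0_20 (t B : R) :
    (1 - t * B) ^ 20 =
      (1) * t ^ 0
      + (-20 * B) * t ^ 1
      + (190 * B ^ 2) * t ^ 2
      + (-1140 * B ^ 3) * t ^ 3
      + (4845 * B ^ 4) * t ^ 4
      + (-15504 * B ^ 5) * t ^ 5
      + (38760 * B ^ 6) * t ^ 6
      + (-77520 * B ^ 7) * t ^ 7
      + (125970 * B ^ 8) * t ^ 8
      + (-167960 * B ^ 9) * t ^ 9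
      + (184756 * B ^ 10) * t ^ 10
      + (-167960 * B ^ 11) * t ^ 11
      + (125970 * B ^ 12) * t ^ 12
      + (-77520 * B ^ 13) * t ^ 13
      + (38760 * B ^ 14) * t ^ 14
      + (-15504 * B ^ 15) * t ^ 15
      + (4845 * B ^ 16) * t ^ 16
      + (-1140 * B ^ 17) * t ^ 17
      + (190 * B ^ 18) * t ^ 18
      + (-20 * B ^ 19) * t ^ 19
      + (B ^ 20) * t ^ 20 := by
  ring

set_option maxHeartbeats 4000000 in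
theorem rsHL_bexp_15_5 (t A B : R) :
    (1 + t * A) ^ 15 * (1 - t * B) ^ 5 =
      (1) * t ^ 0
      + (-5 * B + 15 * A) * t ^ 1
      + (10 * B ^ 2 - 75 * A * B + 105 * A ^ 2) * t ^ 2
      + (-10 * B ^ 3 + 150 * A * B ^ 2 - 525 * A ^ 2 * B + 455 * A ^ 3) * t ^ 3
      + (5 * B ^ 4 - 150 * A * B ^ 3 + 1050 * A ^ 2 * B ^ 2 - 2275 * A ^ 3 * B + 1365 * A ^ 4) * t ^ 4
      + (-B ^ 5 + 75 * A * B ^ 4 - 1050 * A ^ 2 * B ^ 3 + 4550 * A ^ 3 * B ^ 2 - 6825 * A ^ 4 * B + 3003 * A ^ 5) * t ^ 5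
      + (-15 * A * B ^ 5 + 525 * A ^ 2 * B ^ 4 - 4550 * A ^ 3 * B ^ 3 + 13650 * A ^ 4 * B ^ 2 - 15015 * A ^ 5 * B + 5005 * A ^ 6) * t ^ 6
      + (-105 * A ^ 2 * B ^ 5 + 2275 * A ^ 3 * B ^ 4 - 13650 * A ^ 4 * B ^ 3 + 30030 * A ^ 5 * B ^ 2 - 25025 * A ^ 6 * B + 6435 * A ^ 7) * t ^ 7
      + (-455 * A ^ 3 * B ^ 5 + 6825 * A ^ 4 * B ^ 4 - 30030 * A ^ 5 * B ^ 3 + 50050 * A ^ 6 * B ^ 2 - 32175 * A ^ 7 * B + 6435 * A ^ 8) * t ^ 8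
      + (-1365 * A ^ 4 * B ^ 5 + 15015 * A ^ 5 * B ^ 4 - 50050 * A ^ 6 * B ^ 3 + 64350 * A ^ 7 * B ^ 2 - 32175 * A ^ 8 * B + 5005 * A ^ 9) * t ^ 9
      + (-3003 * A ^ 5 * B ^ 5 + 25025 * A ^ 6 * B ^ 4 - 64350 * A ^ 7 * B ^ 3 + 64350 * A ^ 8 * B ^ 2 - 25025 * A ^ 9 * B + 3003 * A ^ 10) * t ^ 10
      + (-5005 * A ^ 6 * B ^ 5 + 32175 * A ^ 7 * B ^ 4 - 64350 * A ^ 8 * B ^ 3 + 50050 * A ^ 9 * B ^ 2 - 15015 * A ^ 10 * B + 1365 * A ^ 11) * t ^ 11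
      + (-6435 * A ^ 7 * B ^ 5 + 32175 * A ^ 8 * B ^ 4 - 50050 * A ^ 9 * B ^ 3 + 30030 * A ^ 10 * B ^ 2 - 6825 * A ^ 11 * B + 455 * A ^ 12) * t ^ 12
      + (-6435 * A ^ 8 * B ^ 5 + 25025 * A ^ 9 * B ^ 4 - 30030 * A ^ 10 * B ^ 3 + 13650 * A ^ 11 * B ^ 2 - 2275 * A ^ 12 * B + 105 * A ^ 13) * t ^ 13
      + (-5005 * A ^ 9 * B ^ 5 + 15015 * A ^ 10 * B ^ 4 - 13650 * A ^ 11 * B ^ 3 + 4550 * A ^ 12 * B ^ 2 - 525 * A ^ 13 * B + 15 * A ^ 14) * t ^ 14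
      + (-3003 * A ^ 10 * B ^ 5 + 6825 * A ^ 11 * B ^ 4 - 4550 * A ^ 12 * B ^ 3 + 1050 * A ^ 13 * B ^ 2 - 75 * A ^ 14 * B + A ^ 15) * t ^ 15
      + (-1365 * A ^ 11 * B ^ 5 + 2275 * A ^ 12 * B ^ 4 - 1050 * A ^ 13 * B ^ 3 + 150 * A ^ 14 * B ^ 2 - 5 * A ^ 15 * B) * t ^ 16
      + (-455 * A ^ 12 * B ^ 5 + 525 * A ^ 13 * B ^ 4 - 150 * A ^ 14 * B ^ 3 + 10 * A ^ 15 * B ^ 2) * t ^ 17
      + (-105 * A ^ 13 * B ^ 5 + 75 * A ^ 14 * B ^ 4 - 10 * A ^ 15 * B ^ 3) * t ^ 18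
      + (-15 * A ^ 14 * B ^ 5 + 5 * A ^ 15 * B ^ 4) * t ^ 19
      + (-A ^ 15 * B ^ 5) * t ^ 20 := by
  ring

set_option maxHeartbeats 4000000 in
theorem rsHL_bexp_5_15 (t A B : R) :
    (1 + t * A) ^ 5 * (1 - t * B) ^ 15 =
      (1) * t ^ 0
      + (-15 * B + 5 * A) * t ^ 1
      + (105 * B ^ 2 - 75 * A * B + 10 * A ^ 2) * t ^ 2
      + (-455 * B ^ 3 + 525 * A * B ^ 2 - 150 * A ^ 2 * B + 10 * A ^ 3) * t ^ 3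
      + (1365 * B ^ 4 - 2275 * A * B ^ 3 + 1050 * A ^ 2 * B ^ 2 - 150 * A ^ 3 * B + 5 * A ^ 4) * t ^ 4
      + (-3003 * B ^ 5 + 6825 * A * B ^ 4 - 4550 * A ^ 2 * B ^ 3 + 1050 * A ^ 3 * B ^ 2 - 75 * A ^ 4 * B + A ^ 5) * t ^ 5
      + (5005 * B ^ 6 - 15015 * A * B ^ 5 + 13650 * A ^ 2 * B ^ 4 - 4550 * A ^ 3 * B ^ 3 + 525 * A ^ 4 * B ^ 2 - 15 * A ^ 5 * B) * t ^ 6
      + (-6435 * B ^ 7 + 25025 * A * B ^ 6 - 30030 * A ^ 2 * B ^ 5 + 13650 * A ^ 3 * B ^ 4 - 2275 * A ^ 4 * B ^ 3 + 105 * A ^ 5 * B ^ 2) * t ^ 7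
      + (6435 * B ^ 8 - 32175 * A * B ^ 7 + 50050 * A ^ 2 * B ^ 6 - 30030 * A ^ 3 * B ^ 5 + 6825 * A ^ 4 * B ^ 4 - 455 * A ^ 5 * B ^ 3) * t ^ 8
      + (-5005 * B ^ 9 + 32175 * A * B ^ 8 - 64350 * A ^ 2 * B ^ 7 + 50050 * A ^ 3 * B ^ 6 - 15015 * A ^ 4 * B ^ 5 + 1365 * A ^ 5 * B ^ 4) * t ^ 9
      + (3003 * B ^ 10 - 25025 * A * B ^ 9 + 64350 * A ^ 2 * B ^ 8 - 64350 * A ^ 3 * B ^ 7 + 25025 * A ^ 4 * B ^ 6 - 3003 * A ^ 5 * B ^ 5) * t ^ 10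
      + (-1365 * B ^ 11 + 15015 * A * B ^ 10 - 50050 * A ^ 2 * B ^ 9 + 64350 * A ^ 3 * B ^ 8 - 32175 * A ^ 4 * B ^ 7 + 5005 * A ^ 5 * B ^ 6) * t ^ 11
      + (455 * B ^ 12 - 6825 * A * B ^ 11 + 30030 * A ^ 2 * B ^ 10 - 50050 * A ^ 3 * B ^ 9 + 32175 * A ^ 4 * B ^ 8 - 6435 * A ^ 5 * B ^ 7) * t ^ 12
      + (-105 * B ^ 13 + 2275 * A * B ^ 12 - 13650 * A ^ 2 * B ^ 11 + 30030 * A ^ 3 * B ^ 10 - 25025 * A ^ 4 * B ^ 9 + 6435 * A ^ 5 * B ^ 8) * t ^ 13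
      + (15 * B ^ 14 - 525 * A * B ^ 13 + 4550 * A ^ 2 * B ^ 12 - 13650 * A ^ 3 * B ^ 11 + 15015 * A ^ 4 * B ^ 10 - 5005 * A ^ 5 * B ^ 9) * t ^ 14
      + (-B ^ 15 + 75 * A * B ^ 14 - 1050 * A ^ 2 * B ^ 13 + 4550 * A ^ 3 * B ^ 12 - 6825 * A ^ 4 * B ^ 11 + 3003 * A ^ 5 * B ^ 10) * t ^ 15
      + (-5 * A * B ^ 15 + 150 * A ^ 2 * B ^ 14 - 1050 * A ^ 3 * B ^ 13 + 2275 * A ^ 4 * B ^ 12 - 1365 * A ^ 5 * B ^ 11) * t ^ 16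
      + (-10 * A ^ 2 * B ^ 15 + 150 * A ^ 3 * B ^ 14 - 525 * A ^ 4 * B ^ 13 + 455 * A ^ 5 * B ^ 12) * t ^ 17
      + (-10 * A ^ 3 * B ^ 15 + 75 * A ^ 4 * B ^ 14 - 105 * A ^ 5 * B ^ 13) * t ^ 18
      + (-5 * A ^ 4 * B ^ 15 + 15 * A ^ 5 * B ^ 14) * t ^ 19
      + (-A ^ 5 * B ^ 15) * t ^ 20 := by
  ring

set_option maxHeartbeats 4000000 in
theorem rsHL_bexp_10_10 (t A B : R) :
    (1 + t * A) ^ 10 * (1 - t * B) ^ 10 =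
      (1) * t ^ 0
      + (-10 * B + 10 * A) * t ^ 1
      + (45 * B ^ 2 - 100 * A * B + 45 * A ^ 2) * t ^ 2
      + (-120 * B ^ 3 + 450 * A * B ^ 2 - 450 * A ^ 2 * B + 120 * A ^ 3) * t ^ 3
      + (210 * B ^ 4 - 1200 * A * B ^ 3 + 2025 * A ^ 2 * B ^ 2 - 1200 * A ^ 3 * B + 210 * A ^ 4) * t ^ 4
      + (-252 * B ^ 5 + 2100 * A * B ^ 4 - 5400 * A ^ 2 * B ^ 3 + 5400 * A ^ 3 * B ^ 2 - 2100 * A ^ 4 * B + 252 * A ^ 5) * t ^ 5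
      + (210 * B ^ 6 - 2520 * A * B ^ 5 + 9450 * A ^ 2 * B ^ 4 - 14400 * A ^ 3 * B ^ 3 + 9450 * A ^ 4 * B ^ 2 - 2520 * A ^ 5 * B + 210 * A ^ 6) * t ^ 6
      + (-120 * B ^ 7 + 2100 * A * B ^ 6 - 11340 * A ^ 2 * B ^ 5 + 25200 * A ^ 3 * B ^ 4 - 25200 * A ^ 4 * B ^ 3 + 11340 * A ^ 5 * B ^ 2 - 2100 * A ^ 6 * B + 120 * A ^ 7) * t ^ 7
      + (45 * B ^ 8 - 1200 * A * B ^ 7 + 9450 * A ^ 2 * B ^ 6 - 30240 * A ^ 3 * B ^ 5 + 44100 * A ^ 4 * B ^ 4 - 30240 * A ^ 5 * B ^ 3 + 9450 * A ^ 6 * B ^ 2 - 1200 * A ^ 7 * B + 45 * A ^ 8) * t ^ 8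
      + (-10 * B ^ 9 + 450 * A * B ^ 8 - 5400 * A ^ 2 * B ^ 7 + 25200 * A ^ 3 * B ^ 6 - 52920 * A ^ 4 * B ^ 5 + 52920 * A ^ 5 * B ^ 4 - 25200 * A ^ 6 * B ^ 3 + 5400 * A ^ 7 * B ^ 2 - 450 * A ^ 8 * B + 10 * A ^ 9) * t ^ 9
      + (B ^ 10 - 100 * A * B ^ 9 + 2025 * A ^ 2 * B ^ 8 - 14400 * A ^ 3 * B ^ 7 + 44100 * A ^ 4 * B ^ 6 - 63504 * A ^ 5 * B ^ 5 + 44100 * A ^ 6 * B ^ 4 - 14400 * A ^ 7 * B ^ 3 + 2025 * A ^ 8 * B ^ 2 - 100 * A ^ 9 * B + A ^ 10) * t ^ 10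
      + (10 * A * B ^ 10 - 450 * A ^ 2 * B ^ 9 + 5400 * A ^ 3 * B ^ 8 - 25200 * A ^ 4 * B ^ 7 + 52920 * A ^ 5 * B ^ 6 - 52920 * A ^ 6 * B ^ 5 + 25200 * A ^ 7 * B ^ 4 - 5400 * A ^ 8 * B ^ 3 + 450 * A ^ 9 * B ^ 2 - 10 * A ^ 10 * B) * t ^ 11
      + (45 * A ^ 2 * B ^ 10 - 1200 * A ^ 3 * B ^ 9 + 9450 * A ^ 4 * B ^ 8 - 30240 * A ^ 5 * B ^ 7 + 44100 * A ^ 6 * B ^ 6 - 30240 * A ^ 7 * B ^ 5 + 9450 * A ^ 8 * B ^ 4 - 1200 * A ^ 9 * B ^ 3 + 45 * A ^ 10 * B ^ 2) * t ^ 12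
      + (120 * A ^ 3 * B ^ 10 - 2100 * A ^ 4 * B ^ 9 + 11340 * A ^ 5 * B ^ 8 - 25200 * A ^ 6 * B ^ 7 + 25200 * A ^ 7 * B ^ 6 - 11340 * A ^ 8 * B ^ 5 + 2100 * A ^ 9 * B ^ 4 - 120 * A ^ 10 * B ^ 3) * t ^ 13
      + (210 * A ^ 4 * B ^ 10 - 2520 * A ^ 5 * B ^ 9 + 9450 * A ^ 6 * B ^ 8 - 14400 * A ^ 7 * B ^ 7 + 9450 * A ^ 8 * B ^ 6 - 2520 * A ^ 9 * B ^ 5 + 210 * A ^ 10 * B ^ 4) * t ^ 14
      + (252 * A ^ 5 * B ^ 10 - 2100 * A ^ 6 * B ^ 9 + 5400 * A ^ 7 * B ^ 8 - 5400 * A ^ 8 * B ^ 7 + 2100 * A ^ 9 * B ^ 6 - 252 * A ^ 10 * B ^ 5) * t ^ 15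
      + (210 * A ^ 6 * B ^ 10 - 1200 * A ^ 7 * B ^ 9 + 2025 * A ^ 8 * B ^ 8 - 1200 * A ^ 9 * B ^ 7 + 210 * A ^ 10 * B ^ 6) * t ^ 16
      + (120 * A ^ 7 * B ^ 10 - 450 * A ^ 8 * B ^ 9 + 450 * A ^ 9 * B ^ 8 - 120 * A ^ 10 * B ^ 7) * t ^ 17
      + (45 * A ^ 8 * B ^ 10 - 100 * A ^ 9 * B ^ 9 + 45 * A ^ 10 * B ^ 8) * t ^ 18
      + (10 * A ^ 9 * B ^ 10 - 10 * A ^ 10 * B ^ 9) * t ^ 19
      + (A ^ 10 * B ^ 10) * t ^ 20 := by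
  ring

theorem rsHL_split (p q a b : R) :
    klHH (p * a ^ 5) (q * b ^ 5) =
      -(p ^ 4 * a ^ 20) - q ^ 4 * b ^ 20 + 228 * p ^ 3 * q * (a ^ 15 * b ^ 5)
        - 228 * p * q ^ 3 * (a ^ 5 * b ^ 15) - 494 * p ^ 2 * q ^ 2 * (a ^ 10 * b ^ 10) := by
  simp only [klHH]
  ring

set_option maxHeartbeats 4000000 in
/-- `rsH` regrouped by powers of `t`. -/
theorem rsHL_regroup (H T t : R) :
    rsH H T t =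
      (H) * t ^ 0
      + (-20 * T) * t ^ 1
      + (-190 * H ^ 2) * t ^ 2
      + (1140 * H * T) * t ^ 3
      + (-5700 * T ^ 2 - 855 * H ^ 3) * t ^ 4
      + (-15504 * H ^ 2 * T) * t ^ 5
      + (-63840 * H * T ^ 2 - 102600 * H ^ 4) * t ^ 6
      + (182400 * T ^ 3 + 259920 * H ^ 3 * T) * t ^ 7
      + (-1126320 * H ^ 2 * T ^ 2 - 1000350 * H ^ 5) * t ^ 8
      + (7904000 * H * T ^ 3 + 7736040 * H ^ 4 * T) * t ^ 9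
      + (-15808000 * T ^ 4 - 5619744 * H ^ 3 * T ^ 2 + 10003500 * H ^ 6) * t ^ 10
      + (-54853760 * H ^ 2 * T ^ 3 - 54685800 * H ^ 5 * T) * t ^ 11
      + (37939200 * H * T ^ 4 - 7202520 * H ^ 4 * T ^ 2 - 45015750 * H ^ 7) * t ^ 12
      + (-58368000 * T ^ 5 - 23201280 * H ^ 3 * T ^ 3 + 35089200 * H ^ 6 * T) * t ^ 13
      + (-287462400 * H ^ 2 * T ^ 4 - 495188640 * H ^ 5 * T ^ 2 - 207765000 * H ^ 8) * t ^ 14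
      + (466944000 * H * T ^ 5 + 882458496 * H ^ 4 * T ^ 3 + 415530000 * H ^ 7 * T) * t ^ 15
      + (-583680000 * T ^ 6 - 1220474880 * H ^ 3 * T ^ 4 - 714711600 * H ^ 6 * T ^ 2 - 77911875 * H ^ 9) * t ^ 16
      + (-361881600 * H ^ 2 * T ^ 5 - 715080960 * H ^ 5 * T ^ 3 - 353200500 * H ^ 8 * T) * t ^ 17
      + (-622592000 * H * T ^ 6 - 2026391040 * H ^ 4 * T ^ 4 - 2182917600 * H ^ 7 * T ^ 2 - 779118750 * H ^ 10) * t ^ 18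
      + (655360000 * T ^ 7 + 2005401600 * H ^ 3 * T ^ 5 + 2044414080 * H ^ 6 * T ^ 3 + 694372500 * H ^ 9 * T) * t ^ 19
      + (180224000 * H ^ 2 * T ^ 6 + 544997376 * H ^ 5 * T ^ 4 + 549301500 * H ^ 8 * T ^ 2 + 184528125 * H ^ 11) * t ^ 20 := by
  simp only [rsH]
  ring

end Fermat.Agent.S52
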