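/-
S52, Rubin–Silverberg line identity for Klein's `H`, staged for low memory (helper6; generated).
Coefficients of `t^0 .. t^7`.
-/
import Fermat.Agent.S52.RSLineH.Exp

set_option autoImplicit false
set_option linter.unusedSimpArgs false
set_option linter.style.longLine false

namespace Fermat.Agent.S52

variable {R : Type*} [CommRing R]

set_option maxHeartbeats 1000000 in
theorem rsHL_coeff_0 (p q : R) :
    -p ^ 4 - q ^ 4 + 228 * p ^ 3 * q - 228 * p * q ^ 3 - 494 * p ^ 2 * q ^ 2 =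
      (klHH p q) := by
  simp only [klA, klB, klHH, klTT]
  ring

set_option maxHeartbeats 1000000 in
theorem rsHL_coeff_1 (p q : R) :
    -20 * p ^ 4 * (klA p q) + 20 * q ^ 4 * (klB p q) - 1140 * p ^ 3 * q * (klB p q) + 3420 * p ^ 3 * q * (klA p q) + 3420 * p * q ^ 3 * (klB p q) - 1140 * p * q ^ 3 * (klA p q) + 4940 * p ^ 2 * q ^ 2 * (klB p q) - 4940 * p ^ 2 * q ^ 2 * (klA p q) =
      -20 * (klTT p q) := by
  simp only [klA, klB, klHH, klTT]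
  ring

set_option maxHeartbeats 1000000 in
theorem rsHL_coeff_2 (p q : R) :
    -190 * p ^ 4 * (klA p q) ^ 2 - 190 * q ^ 4 * (klB p q) ^ 2 + 2280 * p ^ 3 * q * (klB p q) ^ 2 - 17100 * p ^ 3 * q * (klA p q) * (klB p q) + 23940 * p ^ 3 * q * (klA p q) ^ 2 - 23940 * p * q ^ 3 * (klB p q) ^ 2 + 17100 * p * q ^ 3 * (klA p q) * (klB p q) - 2280 * p * q ^ 3 * (klA p q) ^ 2 - 22230 * p ^ 2 * q ^ 2 * (klB p q) ^ 2 + 49400 * p ^ 2 * q ^ 2 * (klA p q) * (klB p q) - 22230 * p ^ 2 * q ^ 2 * (klA p q) ^ 2 =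
      -190 * (klHH p q) ^ 2 := by
  simp only [klA, klB, klHH, klTT]
  ring

set_option maxHeartbeats 1000000 in
theorem rsHL_coeff_3 (p q : R) :
    -1140 * p ^ 4 * (klA p q) ^ 3 + 1140 * q ^ 4 * (klB p q) ^ 3 - 2280 * p ^ 3 * q * (klB p q) ^ 3 + 34200 * p ^ 3 * q * (klA p q) * (klB p q) ^ 2 - 119700 * p ^ 3 * q * (klA p q) ^ 2 * (klB p q) + 103740 * p ^ 3 * q * (klA p q) ^ 3 + 103740 * p * q ^ 3 * (klB p q) ^ 3 - 119700 * p * q ^ 3 * (klA p q) * (klB p q) ^ 2 + 34200 * p * q ^ 3 * (klA p q) ^ 2 * (klB p q) - 2280 * p * q ^ 3 * (klA p q) ^ 3 + 59280 * p ^ 2 * q ^ 2 * (klB p q) ^ 3 - 222300 * p ^ 2 * q ^ 2 * (klA p q) * (klB p q) ^ 2 + 222300 * p ^ 2 * q ^ 2 * (klA p q) ^ 2 * (klB p q) - 59280 * p ^ 2 * q ^ 2 * (klA p q) ^ 3 =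
      1140 * (klHH p q) * (klTT p q) := by
  simp only [klA, klB, klHH, klTT]
  ring

set_option maxHeartbeats 1000000 in
theorem rsHL_coeff_4 (p q : R) :
    -4845 * p ^ 4 * (klA p q) ^ 4 - 4845 * q ^ 4 * (klB p q) ^ 4 + 1140 * p ^ 3 * q * (klB p q) ^ 4 - 34200 * p ^ 3 * q * (klA p q) * (klB p q) ^ 3 + 239400 * p ^ 3 * q * (klA p q) ^ 2 * (klB p q) ^ 2 - 518700 * p ^ 3 * q * (klA p q) ^ 3 * (klB p q) + 311220 * p ^ 3 * q * (klA p q) ^ 4 - 311220 * p * q ^ 3 * (klB p q) ^ 4 + 518700 * p * q ^ 3 * (klA p q) * (klB p q) ^ 3 - 239400 * p * q ^ 3 * (klA p q) ^ 2 * (klB p q) ^ 2 + 34200 * p * q ^ 3 * (klA p q) ^ 3 * (klB p q) - 1140 * p * q ^ 3 * (klA p q) ^ 4 - 103740 * p ^ 2 * q ^ 2 * (klB p q) ^ 4 + 592800 * p ^ 2 * q ^ 2 * (klA p q) * (klB p q) ^ 3 - 1000350 * p ^ 2 * q ^ 2 * (klA p q) ^ 2 * (klB p q) ^ 2 + 592800 * p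 ^ 2 * q ^ 2 * (klA p q) ^ 3 * (klB p q) - 103740 * p ^ 2 * q ^ 2 * (klA p q) ^ 4 =
      -5700 * (klTT p q) ^ 2 - 855 * (klHH p q) ^ 3 := by
  simp only [klA, klB, klHH, klTT]
  ring

set_option maxHeartbeats 1000000 in
theorem rsHL_coeff_5 (p q : R) :
    -15504 * p ^ 4 * (klA p q) ^ 5 + 15504 * q ^ 4 * (klB p q) ^ 5 - 228 * p ^ 3 * q * (klB p q) ^ 5 + 17100 * p ^ 3 * q * (klA p q) * (klB p q) ^ 4 - 239400 * p ^ 3 * q * (klA p q) ^ 2 * (klB p q) ^ 3 + 1037400 * p ^ 3 * q * (klA p q) ^ 3 * (klB p q) ^ 2 - 1556100 * p ^ 3 * q * (klA p q) ^ 4 * (klB p q) + 684684 * p ^ 3 * q * (klA p q) ^ 5 + 684684 * p * q ^ 3 * (klB p q) ^ 5 - 1556100 * p * q ^ 3 * (klA p q) * (klB p q) ^ 4 + 1037400 * p * q ^ 3 * (klA p q) ^ 2 * (klB p q) ^ 3 - 239400 * p * q ^ 3 * (klA p q) ^ 3 * (klB p q) ^ 2 + 17100 * p * q ^ 3 * (klA p q) ^ 4 *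 (klB p q) - 228 * p * q ^ 3 * (klA p q) ^ 5 + 124488 * p ^ 2 * q ^ 2 * (klB p q) ^ 5 - 1037400 * p ^ 2 * q ^ 2 * (klA p q) * (klB p q) ^ 4 + 2667600 * p ^ 2 * q ^ 2 * (klA p q) ^ 2 * (klB p q) ^ 3 - 2667600 * p ^ 2 * q ^ 2 * (klA p q) ^ 3 * (klB p q) ^ 2 + 1037400 * p ^ 2 * q ^ 2 * (klA p q) ^ 4 * (klB p q) - 124488 * p ^ 2 * q ^ 2 * (klA p q) ^ 5 =
      -15504 * (klHH p q) ^ 2 * (klTT p q) := by
  simp only [klA, klB, klHH, klTT]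
  ring

set_option maxHeartbeats 1000000 in
theorem rsHL_coeff_6 (p q : R) :
    -38760 * p ^ 4 * (klA p q) ^ 6 - 38760 * q ^ 4 * (klB p q) ^ 6 - 3420 * p ^ 3 * q * (klA p q) * (klB p q) ^ 5 + 119700 * p ^ 3 * q * (klA p q) ^ 2 * (klB p q) ^ 4 - 1037400 * p ^ 3 * q * (klA p q) ^ 3 * (klB p q) ^ 3 + 3112200 * p ^ 3 * q * (klA p q) ^ 4 * (klB p q) ^ 2 - 3423420 * p ^ 3 * q * (klA p q) ^ 5 * (klB p q) + 1141140 * p ^ 3 * q * (klA p q) ^ 6 - 1141140 * p * q ^ 3 * (klB p q) ^ 6 + 3423420 * p * q ^ 3 * (klA p q) * (klB p q) ^ 5 - 3112200 * p * q ^ 3 * (klA p q) ^ 2 * (klB p q) ^ 4 + 1037400 * p * q ^ 3 * (klA p q) ^ 3 * (klB p q) ^ 3 - 119700 * p * q ^ 3 * (klA p q) ^ 4 * (klB p q) ^ 2 + 3420 * p * q ^ 3 * (klA p q) ^ 5 * (klB p q) - 103740 * p ^ 2 * q ^ 2 * (klB p q) ^ 6 + 1244880 * p ^ 2 * q ^ 2 * (klA p q) * (klB p q) ^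 5 - 4668300 * p ^ 2 * q ^ 2 * (klA p q) ^ 2 * (klB p q) ^ 4 + 7113600 * p ^ 2 * q ^ 2 * (klA p q) ^ 3 * (klB p q) ^ 3 - 4668300 * p ^ 2 * q ^ 2 * (klA p q) ^ 4 * (klB p q) ^ 2 + 1244880 * p ^ 2 * q ^ 2 * (klA p q) ^ 5 * (klB p q) - 103740 * p ^ 2 * q ^ 2 * (klA p q) ^ 6 =
      -63840 * (klHH p q) * (klTT p q) ^ 2 - 102600 * (klHH p q) ^ 4 := by
  simp only [klA, klB, klHH, klTT]
  ring

set_option maxHeartbeats 1000000 in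
theorem rsHL_coeff_7 (p q : R) :
    -77520 * p ^ 4 * (klA p q) ^ 7 + 77520 * q ^ 4 * (klB p q) ^ 7 - 23940 * p ^ 3 * q * (klA p q) ^ 2 * (klB p q) ^ 5 + 518700 * p ^ 3 * q * (klA p q) ^ 3 * (klB p q) ^ 4 - 3112200 * p ^ 3 * q * (klA p q) ^ 4 * (klB p q) ^ 3 + 6846840 * p ^ 3 * q * (klA p q) ^ 5 * (klB p q) ^ 2 - 5705700 * p ^ 3 * q * (klA p q) ^ 6 * (klB p q) + 1467180 * p ^ 3 * q * (klA p q) ^ 7 + 1467180 * p * q ^ 3 * (klB p q) ^ 7 - 5705700 * p * q ^ 3 * (klA p q) * (klB p q) ^ 6 + 6846840 * p * q ^ 3 * (klA p q) ^ 2 * (klB p q) ^ 5 - 3112200 * p * q ^ 3 * (klA p q) ^ 3 * (klB p q) ^ 4 + 518700 * p * q ^ 3 * (klA p q) ^ 4 * (klB p q) ^ 3 - 23940 * p * q ^ 3 * (klA p q) ^ 5 * (klB p q) ^ 2 + 59280 * p ^ 2 * q ^ 2 * (klB p q) ^ 7 - 1037400 * p ^ 2 * q ^ 2 * (klA p q) * (klB p q) ^ 6 + 5601960 * p ^ 2 * q ^ 2 * (klA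 p q) ^ 2 * (klB p q) ^ 5 - 12448800 * p ^ 2 * q ^ 2 * (klA p q) ^ 3 * (klB p q) ^ 4 + 12448800 * p ^ 2 * q ^ 2 * (klA p q) ^ 4 * (klB p q) ^ 3 - 5601960 * p ^ 2 * q ^ 2 * (klA p q) ^ 5 * (klB p q) ^ 2 + 1037400 * p ^ 2 * q ^ 2 * (klA p q) ^ 6 * (klB p q) - 59280 * p ^ 2 * q ^ 2 * (klA p q) ^ 7 =
      182400 * (klTT p q) ^ 3 + 259920 * (klHH p q) ^ 3 * (klTT p q) := by
  simp only [klA, klB, klHH, klTT]
  ring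

end Fermat.Agent.S52
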