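/-
S52, Rubin–Silverberg line identity for Klein's `H`, staged for low memory (helper6; generated).
Coefficients of `t^8 .. t^12`.
-/
import Fermat.Agent.S52.RSLineH.C0

set_option autoImplicit false
set_option linter.unusedSimpArgs false
set_option linter.style.longLine false

namespace Fermat.Agent.S52

variable {R : Type*} [CommRing R]

set_option maxHeartbeats 1000000 in
theorem rsHL_coeff_8 (p q : R) :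
    -125970 * p ^ 4 * (klA p q) ^ 8 - 125970 * q ^ 4 * (klB p q) ^ 8 - 103740 * p ^ 3 * q * (klA p q) ^ 3 * (klB p q) ^ 5 + 1556100 * p ^ 3 * q * (klA p q) ^ 4 * (klB p q) ^ 4 - 6846840 * p ^ 3 * q * (klA p q) ^ 5 * (klB p q) ^ 3 + 11411400 * p ^ 3 * q * (klA p q) ^ 6 * (klB p q) ^ 2 - 7335900 * p ^ 3 * q * (klA p q) ^ 7 * (klB p q) + 1467180 * p ^ 3 * q * (klA p q) ^ 8 - 1467180 * p * q ^ 3 * (klB p q) ^ 8 + 7335900 * p * q ^ 3 * (klA p q) * (klB p q) ^ 7 - 11411400 * p * q ^ 3 * (klA p q) ^ 2 * (klB p q) ^ 6 + 6846840 * p * q ^ 3 * (klA p q) ^ 3 * (klB p q) ^ 5 - 1556100 * p * q ^ 3 * (klA p q) ^ 4 * (klB p q) ^ 4 + 103740 * p * q ^ 3 * (klA p q) ^ 5 * (klB p q) ^ 3 - 22230 * p ^ 2 * q ^ 2 * (klB p q) ^ 8 + 592800 * p ^ 2 * q ^ 2 * (klA p q) * (klB p q) ^ 7 - 4668300 * p ^ 2 * q ^ 2 * (klA p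 q) ^ 2 * (klB p q) ^ 6 + 14938560 * p ^ 2 * q ^ 2 * (klA p q) ^ 3 * (klB p q) ^ 5 - 21785400 * p ^ 2 * q ^ 2 * (klA p q) ^ 4 * (klB p q) ^ 4 + 14938560 * p ^ 2 * q ^ 2 * (klA p q) ^ 5 * (klB p q) ^ 3 - 4668300 * p ^ 2 * q ^ 2 * (klA p q) ^ 6 * (klB p q) ^ 2 + 592800 * p ^ 2 * q ^ 2 * (klA p q) ^ 7 * (klB p q) - 22230 * p ^ 2 * q ^ 2 * (klA p q) ^ 8 =
      -1126320 * (klHH p q) ^ 2 * (klTT p q) ^ 2 - 1000350 * (klHH p q) ^ 5 := by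
  simp only [klA, klB, klHH, klTT]
  ring

set_option maxHeartbeats 1000000 in
theorem rsHL_coeff_9 (p q : R) :
    -167960 * p ^ 4 * (klA p q) ^ 9 + 167960 * q ^ 4 * (klB p q) ^ 9 - 311220 * p ^ 3 * q * (klA p q) ^ 4 * (klB p q) ^ 5 + 3423420 * p ^ 3 * q * (klA p q) ^ 5 * (klB p q) ^ 4 - 11411400 * p ^ 3 * q * (klA p q) ^ 6 * (klB p q) ^ 3 + 14671800 * p ^ 3 * q * (klA p q) ^ 7 * (klB p q) ^ 2 - 7335900 * p ^ 3 * q * (klA p q) ^ 8 * (klB p q) + 1141140 * p ^ 3 * q * (klA p q) ^ 9 + 1141140 * p * q ^ 3 * (klB p q) ^ 9 - 7335900 * p * q ^ 3 * (klA p q) * (klB p q) ^ 8 + 14671800 * p * q ^ 3 * (klA p q) ^ 2 * (klB p q) ^ 7 - 11411400 * p * q ^ 3 * (klA p q) ^ 3 * (klB p q) ^ 6 + 3423420 * p * q ^ 3 * (klA p q) ^ 4 * (klB p q) ^ 5 - 311220 * p * q ^ 3 * (klA p q) ^ 5 * (klB p q) ^ 4 + 4940 * p ^ 2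 * q ^ 2 * (klB p q) ^ 9 - 222300 * p ^ 2 * q ^ 2 * (klA p q) * (klB p q) ^ 8 + 2667600 * p ^ 2 * q ^ 2 * (klA p q) ^ 2 * (klB p q) ^ 7 - 12448800 * p ^ 2 * q ^ 2 * (klA p q) ^ 3 * (klB p q) ^ 6 + 26142480 * p ^ 2 * q ^ 2 * (klA p q) ^ 4 * (klB p q) ^ 5 - 26142480 * p ^ 2 * q ^ 2 * (klA p q) ^ 5 * (klB p q) ^ 4 + 12448800 * p ^ 2 * q ^ 2 * (klA p q) ^ 6 * (klB p q) ^ 3 - 2667600 * p ^ 2 * q ^ 2 * (klA p q) ^ 7 * (klB p q) ^ 2 + 222300 * p ^ 2 * q ^ 2 * (klA p q) ^ 8 * (klB p q) - 4940 * p ^ 2 * q ^ 2 * (klA p q) ^ 9 =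
      7904000 * (klHH p q) * (klTT p q) ^ 3 + 7736040 * (klHH p q) ^ 4 * (klTT p q) := by
  simp only [klA, klB, klHH, klTT]
  ring

set_option maxHeartbeats 1000000 in
theorem rsHL_coeff_10 (p q : R) :
    -184756 * p ^ 4 * (klA p q) ^ 10 - 184756 * q ^ 4 * (klB p q) ^ 10 - 684684 * p ^ 3 * q * (klA p q) ^ 5 * (klB p q) ^ 5 + 5705700 * p ^ 3 * q * (klA p q) ^ 6 * (klB p q) ^ 4 - 14671800 * p ^ 3 * q * (klA p q) ^ 7 * (klB p q) ^ 3 + 14671800 * p ^ 3 * q * (klA p q) ^ 8 * (klB p q) ^ 2 - 5705700 * p ^ 3 * q * (klA p q) ^ 9 * (klB p q) + 684684 * p ^ 3 * q * (klA p q) ^ 10 - 684684 * p * q ^ 3 * (klB p q) ^ 10 + 5705700 * p * q ^ 3 * (klA p q) * (klB p q) ^ 9 - 14671800 * p * q ^ 3 * (klA p q) ^ 2 * (klB p q) ^ 8 + 14671800 * p * q ^ 3 * (klA p q) ^ 3 * (klB p q) ^ 7 - 5705700 * p * q ^ 3 * (klA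 p q) ^ 4 * (klB p q) ^ 6 + 684684 * p * q ^ 3 * (klA p q) ^ 5 * (klB p q) ^ 5 - 494 * p ^ 2 * q ^ 2 * (klB p q) ^ 10 + 49400 * p ^ 2 * q ^ 2 * (klA p q) * (klB p q) ^ 9 - 1000350 * p ^ 2 * q ^ 2 * (klA p q) ^ 2 * (klB p q) ^ 8 + 7113600 * p ^ 2 * q ^ 2 * (klA p q) ^ 3 * (klB p q) ^ 7 - 21785400 * p ^ 2 * q ^ 2 * (klA p q) ^ 4 * (klB p q) ^ 6 + 31370976 * p ^ 2 * q ^ 2 * (klA p q) ^ 5 * (klB p q) ^ 5 - 21785400 * p ^ 2 * q ^ 2 * (klA p q) ^ 6 * (klB p q) ^ 4 + 7113600 * p ^ 2 * q ^ 2 * (klA p q) ^ 7 * (klB p q) ^ 3 - 1000350 * p ^ 2 * q ^ 2 * (klA p q) ^ 8 * (klB p q) ^ 2 + 49400 * p ^ 2 * q ^ 2 * (klA p q) ^ 9 * (klB p q) - 494 * p ^ 2 * q ^ 2 * (klA p q) ^ 10 =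
      -15808000 * (klTT p q) ^ 4 - 5619744 * (klHH p q) ^ 3 * (klTT p q) ^ 2 + 10003500 * (klHH p q) ^ 6 := by
  simp only [klA, klB, klHH, klTT]
  ring

set_option maxHeartbeats 1000000 in
theorem rsHL_coeff_11 (p q : R) :
    -167960 * p ^ 4 * (klA p q) ^ 11 + 167960 * q ^ 4 * (klB p q) ^ 11 - 1141140 * p ^ 3 * q * (klA p q) ^ 6 * (klB p q) ^ 5 + 7335900 * p ^ 3 * q * (klA p q) ^ 7 * (klB p q) ^ 4 - 14671800 * p ^ 3 * q * (klA p q) ^ 8 * (klB p q) ^ 3 + 11411400 * p ^ 3 * q * (klA p q) ^ 9 * (klB p q) ^ 2 - 3423420 * p ^ 3 * q * (klA p q) ^ 10 * (klB p q) + 311220 * p ^ 3 * q * (klA p q) ^ 11 + 311220 * p * q ^ 3 * (klB p q) ^ 11 - 3423420 * p * q ^ 3 * (klA p q) * (klB p q) ^ 10 + 11411400 * p * q ^ 3 * (klA p q) ^ 2 * (klB p q) ^ 9 - 14671800 * p * q ^ 3 * (klA p q) ^ 3 * (klB p q) ^ 8 + 7335900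 * p * q ^ 3 * (klA p q) ^ 4 * (klB p q) ^ 7 - 1141140 * p * q ^ 3 * (klA p q) ^ 5 * (klB p q) ^ 6 - 4940 * p ^ 2 * q ^ 2 * (klA p q) * (klB p q) ^ 10 + 222300 * p ^ 2 * q ^ 2 * (klA p q) ^ 2 * (klB p q) ^ 9 - 2667600 * p ^ 2 * q ^ 2 * (klA p q) ^ 3 * (klB p q) ^ 8 + 12448800 * p ^ 2 * q ^ 2 * (klA p q) ^ 4 * (klB p q) ^ 7 - 26142480 * p ^ 2 * q ^ 2 * (klA p q) ^ 5 * (klB p q) ^ 6 + 26142480 * p ^ 2 * q ^ 2 * (klA p q) ^ 6 * (klB p q) ^ 5 - 12448800 * p ^ 2 * q ^ 2 * (klA p q) ^ 7 * (klB p q) ^ 4 + 2667600 * p ^ 2 * q ^ 2 * (klA p q) ^ 8 * (klB p q) ^ 3 - 222300 * p ^ 2 * q ^ 2 * (klA p q) ^ 9 * (klB p q) ^ 2 + 4940 * p ^ 2 * q ^ 2 * (klA p q) ^ 10 * (klB p q) =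
      -54853760 * (klHH p q) ^ 2 * (klTT p q) ^ 3 - 54685800 * (klHH p q) ^ 5 * (klTT p q) := by
  simp only [klA, klB, klHH, klTT]
  ring

set_option maxHeartbeats 1000000 in
theorem rsHL_coeff_12 (p q : R) :
    -125970 * p ^ 4 * (klA p q) ^ 12 - 125970 * q ^ 4 * (klB p q) ^ 12 - 1467180 * p ^ 3 * q * (klA p q) ^ 7 * (klB p q) ^ 5 + 7335900 * p ^ 3 * q * (klA p q) ^ 8 * (klB p q) ^ 4 - 11411400 * p ^ 3 * q * (klA p q) ^ 9 * (klB p q) ^ 3 + 6846840 * p ^ 3 * q * (klA p q) ^ 10 * (klB p q) ^ 2 - 1556100 * p ^ 3 * q * (klA p q) ^ 11 * (klB p q) + 103740 * p ^ 3 * q * (klA p q) ^ 12 - 103740 * p * q ^ 3 * (klB p q) ^ 12 + 1556100 * p * q ^ 3 * (klA p q) * (klB p q) ^ 11 - 6846840 * p * q ^ 3 * (klA p q) ^ 2 * (klB p q) ^ 10 + 11411400 * p * q ^ 3 * (klA p q) ^ 3 * (klB p q) ^ 9 - 7335900 * p * q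 ^ 3 * (klA p q) ^ 4 * (klB p q) ^ 8 + 1467180 * p * q ^ 3 * (klA p q) ^ 5 * (klB p q) ^ 7 - 22230 * p ^ 2 * q ^ 2 * (klA p q) ^ 2 * (klB p q) ^ 10 + 592800 * p ^ 2 * q ^ 2 * (klA p q) ^ 3 * (klB p q) ^ 9 - 4668300 * p ^ 2 * q ^ 2 * (klA p q) ^ 4 * (klB p q) ^ 8 + 14938560 * p ^ 2 * q ^ 2 * (klA p q) ^ 5 * (klB p q) ^ 7 - 21785400 * p ^ 2 * q ^ 2 * (klA p q) ^ 6 * (klB p q) ^ 6 + 14938560 * p ^ 2 * q ^ 2 * (klA p q) ^ 7 * (klB p q) ^ 5 - 4668300 * p ^ 2 * q ^ 2 * (klA p q) ^ 8 * (klB p q) ^ 4 + 592800 * p ^ 2 * q ^ 2 * (klA p q) ^ 9 * (klB p q) ^ 3 - 22230 * p ^ 2 * q ^ 2 * (klA p q) ^ 10 * (klB p q) ^ 2 =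
      37939200 * (klHH p q) * (klTT p q) ^ 4 - 7202520 * (klHH p q) ^ 4 * (klTT p q) ^ 2 - 45015750 * (klHH p q) ^ 7 := by
  simp only [klA, klB, klHH, klTT]
  ring

end Fermat.Agent.S52
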