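/-
S52, Rubin–Silverberg line identity for Klein's `H`, staged for low memory (helper6; generated).
Coefficients of `t^13 .. t^16`.
-/
import Fermat.Agent.S52.RSLineH.C1

set_option autoImplicit false
set_option linter.unusedSimpArgs false
set_option linter.style.longLine false

namespace Fermat.Agent.S52

variable {R : Type*} [CommRing R]

set_option maxHeartbeats 1000000 in
theorem rsHL_coeff_13 (p q : R) :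
    -77520 * p ^ 4 * (klA p q) ^ 13 + 77520 * q ^ 4 * (klB p q) ^ 13 - 1467180 * p ^ 3 * q * (klA p q) ^ 8 * (klB p q) ^ 5 + 5705700 * p ^ 3 * q * (klA p q) ^ 9 * (klB p q) ^ 4 - 6846840 * p ^ 3 * q * (klA p q) ^ 10 * (klB p q) ^ 3 + 3112200 * p ^ 3 * q * (klA p q) ^ 11 * (klB p q) ^ 2 - 518700 * p ^ 3 * q * (klA p q) ^ 12 * (klB p q) + 23940 * p ^ 3 * q * (klA p q) ^ 13 + 23940 * p * q ^ 3 * (klB p q) ^ 13 - 518700 * p * q ^ 3 * (klA p q) * (klB p q) ^ 12 + 3112200 * p * q ^ 3 * (klA p q) ^ 2 * (klB p q) ^ 11 - 6846840 * p * q ^ 3 * (klA p q) ^ 3 * (klB p q) ^ 10 + 5705700 * p * q ^ 3 * (klA p q) ^ 4 * (klB p q) ^ 9 - 1467180 * p * q ^ 3 * (klA p q) ^ 5 * (klB p q) ^ 8 - 59280 * p ^ 2 * q ^ 2 * (klA p q) ^ 3 * (klB p q) ^ 10 + 1037400 * p ^ 2 * q ^ 2 * (klA p q) ^ 4 * (klB p q) ^ 9 - 5601960 * p ^ 2 * q ^ 2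 * (klA p q) ^ 5 * (klB p q) ^ 8 + 12448800 * p ^ 2 * q ^ 2 * (klA p q) ^ 6 * (klB p q) ^ 7 - 12448800 * p ^ 2 * q ^ 2 * (klA p q) ^ 7 * (klB p q) ^ 6 + 5601960 * p ^ 2 * q ^ 2 * (klA p q) ^ 8 * (klB p q) ^ 5 - 1037400 * p ^ 2 * q ^ 2 * (klA p q) ^ 9 * (klB p q) ^ 4 + 59280 * p ^ 2 * q ^ 2 * (klA p q) ^ 10 * (klB p q) ^ 3 =
      -58368000 * (klTT p q) ^ 5 - 23201280 * (klHH p q) ^ 3 * (klTT p q) ^ 3 + 35089200 * (klHH p q) ^ 6 * (klTT p q) := by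
  simp only [klA, klB, klHH, klTT]
  ring

set_option maxHeartbeats 1000000 in
theorem rsHL_coeff_14 (p q : R) :
    -38760 * p ^ 4 * (klA p q) ^ 14 - 38760 * q ^ 4 * (klB p q) ^ 14 - 1141140 * p ^ 3 * q * (klA p q) ^ 9 * (klB p q) ^ 5 + 3423420 * p ^ 3 * q * (klA p q) ^ 10 * (klB p q) ^ 4 - 3112200 * p ^ 3 * q * (klA p q) ^ 11 * (klB p q) ^ 3 + 1037400 * p ^ 3 * q * (klA p q) ^ 12 * (klB p q) ^ 2 - 119700 * p ^ 3 * q * (klA p q) ^ 13 * (klB p q) + 3420 * p ^ 3 * q * (klA p q) ^ 14 - 3420 * p * q ^ 3 * (klB p q) ^ 14 + 119700 * p * q ^ 3 * (klA p q) * (klB p q) ^ 13 - 1037400 * p * q ^ 3 * (klA p q) ^ 2 * (klB p q) ^ 12 + 3112200 * p * q ^ 3 * (klA p q) ^ 3 * (klB p q) ^ 11 - 3423420 * p * q ^ 3 * (klA p q) ^ 4 * (klB p q) ^ 10 + 1141140 * p * q ^ 3 * (klA p q) ^ 5 * (klB p q) ^ 9 - 103740 * p ^ 2 * q ^ 2 *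 (klA p q) ^ 4 * (klB p q) ^ 10 + 1244880 * p ^ 2 * q ^ 2 * (klA p q) ^ 5 * (klB p q) ^ 9 - 4668300 * p ^ 2 * q ^ 2 * (klA p q) ^ 6 * (klB p q) ^ 8 + 7113600 * p ^ 2 * q ^ 2 * (klA p q) ^ 7 * (klB p q) ^ 7 - 4668300 * p ^ 2 * q ^ 2 * (klA p q) ^ 8 * (klB p q) ^ 6 + 1244880 * p ^ 2 * q ^ 2 * (klA p q) ^ 9 * (klB p q) ^ 5 - 103740 * p ^ 2 * q ^ 2 * (klA p q) ^ 10 * (klB p q) ^ 4 =
      -287462400 * (klHH p q) ^ 2 * (klTT p q) ^ 4 - 495188640 * (klHH p q) ^ 5 * (klTT p q) ^ 2 - 207765000 * (klHH p q) ^ 8 := by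
  simp only [klA, klB, klHH, klTT]
  ring

set_option maxHeartbeats 1000000 in
theorem rsHL_coeff_15 (p q : R) :
    -15504 * p ^ 4 * (klA p q) ^ 15 + 15504 * q ^ 4 * (klB p q) ^ 15 - 684684 * p ^ 3 * q * (klA p q) ^ 10 * (klB p q) ^ 5 + 1556100 * p ^ 3 * q * (klA p q) ^ 11 * (klB p q) ^ 4 - 1037400 * p ^ 3 * q * (klA p q) ^ 12 * (klB p q) ^ 3 + 239400 * p ^ 3 * q * (klA p q) ^ 13 * (klB p q) ^ 2 - 17100 * p ^ 3 * q * (klA p q) ^ 14 * (klB p q) + 228 * p ^ 3 * q * (klA p q) ^ 15 + 228 * p * q ^ 3 * (klB p q) ^ 15 - 17100 * p * q ^ 3 * (klA p q) * (klB p q) ^ 14 + 239400 * p * q ^ 3 * (klA p q) ^ 2 * (klB p q) ^ 13 - 1037400 * p * q ^ 3 * (klA p q) ^ 3 * (klB p q) ^ 12 + 1556100 * p * q ^ 3 * (klA p q) ^ 4 * (klB p q) ^ 11 - 684684 * p * q ^ 3 * (klA p q) ^ 5 * (klB p q) ^ 10 - 124488 * p ^ 2 * q ^ 2 * (klA p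 q) ^ 5 * (klB p q) ^ 10 + 1037400 * p ^ 2 * q ^ 2 * (klA p q) ^ 6 * (klB p q) ^ 9 - 2667600 * p ^ 2 * q ^ 2 * (klA p q) ^ 7 * (klB p q) ^ 8 + 2667600 * p ^ 2 * q ^ 2 * (klA p q) ^ 8 * (klB p q) ^ 7 - 1037400 * p ^ 2 * q ^ 2 * (klA p q) ^ 9 * (klB p q) ^ 6 + 124488 * p ^ 2 * q ^ 2 * (klA p q) ^ 10 * (klB p q) ^ 5 =
      466944000 * (klHH p q) * (klTT p q) ^ 5 + 882458496 * (klHH p q) ^ 4 * (klTT p q) ^ 3 + 415530000 * (klHH p q) ^ 7 * (klTT p q) := by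
  simp only [klA, klB, klHH, klTT]
  ring

set_option maxHeartbeats 1000000 in
theorem rsHL_coeff_16 (p q : R) :
    -4845 * p ^ 4 * (klA p q) ^ 16 - 4845 * q ^ 4 * (klB p q) ^ 16 - 311220 * p ^ 3 * q * (klA p q) ^ 11 * (klB p q) ^ 5 + 518700 * p ^ 3 * q * (klA p q) ^ 12 * (klB p q) ^ 4 - 239400 * p ^ 3 * q * (klA p q) ^ 13 * (klB p q) ^ 3 + 34200 * p ^ 3 * q * (klA p q) ^ 14 * (klB p q) ^ 2 - 1140 * p ^ 3 * q * (klA p q) ^ 15 * (klB p q) + 1140 * p * q ^ 3 * (klA p q) * (klB p q) ^ 15 - 34200 * p * q ^ 3 * (klA p q) ^ 2 * (klB p q) ^ 14 + 239400 * p * q ^ 3 * (klA p q) ^ 3 * (klB p q) ^ 13 - 518700 * p * q ^ 3 * (klA p q) ^ 4 * (klB p q) ^ 12 + 311220 * p * q ^ 3 * (klA p q) ^ 5 * (klB p q) ^ 11 - 103740 * p ^ 2 * q ^ 2 * (klA p q) ^ 6 * (klB p q) ^ 10 + 592800 * p ^ 2 * q ^ 2 * (klA p q) ^ 7 * (klB p q) ^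 9 - 1000350 * p ^ 2 * q ^ 2 * (klA p q) ^ 8 * (klB p q) ^ 8 + 592800 * p ^ 2 * q ^ 2 * (klA p q) ^ 9 * (klB p q) ^ 7 - 103740 * p ^ 2 * q ^ 2 * (klA p q) ^ 10 * (klB p q) ^ 6 =
      -583680000 * (klTT p q) ^ 6 - 1220474880 * (klHH p q) ^ 3 * (klTT p q) ^ 4 - 714711600 * (klHH p q) ^ 6 * (klTT p q) ^ 2 - 77911875 * (klHH p q) ^ 9 := by
  simp only [klA, klB, klHH, klTT]
  ring

end Fermat.Agent.S52
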