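/-
S52, Rubin–Silverberg line identity for Klein's `H`, staged for low memory (helper6; generated).
Coefficients of `t^17 .. t^20`.
-/
import Fermat.Agent.S52.RSLineH.C2

set_option autoImplicit false
set_option linter.unusedSimpArgs false
set_option linter.style.longLine false

namespace Fermat.Agent.S52

variable {R : Type*} [CommRing R]

set_option maxHeartbeats 1000000 in
theorem rsHL_coeff_17 (p q : R) :
    -1140 * p ^ 4 * (klA p q) ^ 17 + 1140 * q ^ 4 * (klB p q) ^ 17 - 103740 * p ^ 3 * q * (klA p q) ^ 12 * (klB p q) ^ 5 + 119700 * p ^ 3 * q * (klA p q) ^ 13 * (klB p q) ^ 4 - 34200 * p ^ 3 * q * (klA p q) ^ 14 * (klB p q) ^ 3 + 2280 * p ^ 3 * q * (klA p q) ^ 15 * (klB p q) ^ 2 + 2280 * p * q ^ 3 * (klA p q) ^ 2 * (klB p q) ^ 15 - 34200 * p * q ^ 3 * (klA p q) ^ 3 * (klB p q) ^ 14 + 119700 * p * q ^ 3 * (klA p q) ^ 4 * (klB p q) ^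 13 - 103740 * p * q ^ 3 * (klA p q) ^ 5 * (klB p q) ^ 12 - 59280 * p ^ 2 * q ^ 2 * (klA p q) ^ 7 * (klB p q) ^ 10 + 222300 * p ^ 2 * q ^ 2 * (klA p q) ^ 8 * (klB p q) ^ 9 - 222300 * p ^ 2 * q ^ 2 * (klA p q) ^ 9 * (klB p q) ^ 8 + 59280 * p ^ 2 * q ^ 2 * (klA p q) ^ 10 * (klB p q) ^ 7 =
      -361881600 * (klHH p q) ^ 2 * (klTT p q) ^ 5 - 715080960 * (klHH p q) ^ 5 * (klTT p q) ^ 3 - 353200500 * (klHH p q) ^ 8 * (klTT p q) := by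
  simp only [klA, klB, klHH, klTT]
  ring

set_option maxHeartbeats 1000000 in
theorem rsHL_coeff_18 (p q : R) :
    -190 * p ^ 4 * (klA p q) ^ 18 - 190 * q ^ 4 * (klB p q) ^ 18 - 23940 * p ^ 3 * q * (klA p q) ^ 13 * (klB p q) ^ 5 + 17100 * p ^ 3 * q * (klA p q) ^ 14 * (klB p q) ^ 4 - 2280 * p ^ 3 * q * (klA p q) ^ 15 * (klB p q) ^ 3 + 2280 * p * q ^ 3 * (klA p q) ^ 3 * (klB p q) ^ 15 - 17100 * p * q ^ 3 * (klA p q) ^ 4 * (klB p q) ^ 14 + 23940 * p * q ^ 3 * (klA p q) ^ 5 * (klB p q) ^ 13 - 22230 * p ^ 2 * q ^ 2 * (klA p q) ^ 8 * (klB p q) ^ 10 + 49400 * p ^ 2 * q ^ 2 * (klA p q) ^ 9 * (klB p q) ^ 9 - 22230 * p ^ 2 * q ^ 2 * (klA p q) ^ 10 * (klB p q) ^ 8 =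
      -622592000 * (klHH p q) * (klTT p q) ^ 6 - 2026391040 * (klHH p q) ^ 4 * (klTT p q) ^ 4 - 2182917600 * (klHH p q) ^ 7 * (klTT p q) ^ 2 - 779118750 * (klHH p q) ^ 10 := by
  simp only [klA, klB, klHH, klTT]
  ring

set_option maxHeartbeats 1000000 in
theorem rsHL_coeff_19 (p q : R) :
    -20 * p ^ 4 * (klA p q) ^ 19 + 20 * q ^ 4 * (klB p q) ^ 19 - 3420 * p ^ 3 * q * (klA p q) ^ 14 * (klB p q) ^ 5 + 1140 * p ^ 3 * q * (klA p q) ^ 15 * (klB p q) ^ 4 + 1140 * p * q ^ 3 * (klA p q) ^ 4 * (klB p q) ^ 15 - 3420 * p * q ^ 3 * (klA p q) ^ 5 * (klB p q) ^ 14 - 4940 * p ^ 2 * q ^ 2 * (klA p q) ^ 9 * (klB p q) ^ 10 + 4940 * p ^ 2 * q ^ 2 * (klA p q) ^ 10 * (klB p q) ^ 9 =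
      655360000 * (klTT p q) ^ 7 + 2005401600 * (klHH p q) ^ 3 * (klTT p q) ^ 5 + 2044414080 * (klHH p q) ^ 6 * (klTT p q) ^ 3 + 694372500 * (klHH p q) ^ 9 * (klTT p q) := by
  simp only [klA, klB, klHH, klTT]
  ring

set_option maxHeartbeats 1000000 in
theorem rsHL_coeff_20 (p q : R) :
    -p ^ 4 * (klA p q) ^ 20 - q ^ 4 * (klB p q) ^ 20 - 228 * p ^ 3 * q * (klA p q) ^ 15 * (klB p q) ^ 5 + 228 * p * q ^ 3 * (klA p q) ^ 5 * (klB p q) ^ 15 - 494 * p ^ 2 * q ^ 2 * (klA p q) ^ 10 * (klB p q) ^ 10 =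
      180224000 * (klHH p q) ^ 2 * (klTT p q) ^ 6 + 544997376 * (klHH p q) ^ 5 * (klTT p q) ^ 4 + 549301500 * (klHH p q) ^ 8 * (klTT p q) ^ 2 + 184528125 * (klHH p q) ^ 11 := by
  simp only [klA, klB, klHH, klTT]
  ring

end Fermat.Agent.S52
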