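/-
S52, Rubin–Silverberg line identity for Klein's `H`, staged for low memory (helper6; generated).
Assembly: `rsH_line_pq`.
-/
import Fermat.Agent.S52.RSLineH.C3

set_option autoImplicit false
set_option linter.unusedSimpArgs false
set_option linter.style.longLine false

namespace Fermat.Agent.S52

variable {R : Type*} [CommRing R]

set_option maxHeartbeats 8000000 in
/-- The line identity for `H` in the variables `p = u⁵`, `q = v⁵`. -/
theorem rsH_line_pq (p q t : R) :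
    klHH (p * (1 + t * klA p q) ^ 5) (q * (1 - t * klB p q) ^ 5)
      = rsH (klHH p q) (klTT p q) t := by
  rw [rsHL_split, rsHL_bexp_20_0, rsHL_bexp_0_20, rsHL_bexp_15_5, rsHL_bexp_5_15,
    rsHL_bexp_10_10, rsHL_regroup]
  linear_combination t ^ 0 * rsHL_coeff_0 p q + t ^ 1 * rsHL_coeff_1 p q + t ^ 2 * rsHL_coeff_2 p q + t ^ 3 * rsHL_coeff_3 p q + t ^ 4 * rsHL_coeff_4 p q + t ^ 5 * rsHL_coeff_5 p q + t ^ 6 * rsHL_coeff_6 p q + t ^ 7 * rsHL_coeff_7 p q + t ^ 8 * rsHL_coeff_8 p q + t ^ 9 * rsHL_coeff_9 p q + t ^ 10 * rsHL_coeff_10 p q + t ^ 11 * rsHL_coeff_11 p q + t ^ 12 * rsHL_coeff_12 p q + t ^ 13 * rsHL_coeff_13 p q + t ^ 14 * rsHL_coeff_14 p q + t ^ 15 * rsHL_coeff_15 p q + t ^ 16 * rsHL_coeff_16 p q + t ^ 17 * rsHL_coeff_17 p q + t ^ 18 * rsHL_coeff_18 p q + t ^ 19 * rsHL_coeff_19 p q + t ^ 20 * rsHL_coeff_20 p q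

end Fermat.Agent.S52
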